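import Mathlib.Analysis.SpecialFunctions.Elliptic.Weierstrass
import Mathlib.NumberTheory.LSeries.HurwitzZetaValues
import Mathlib.NumberTheory.ModularForms.EisensteinSeries.QExpansion
import Fermat.Agent.MC.JPoints
import Mathlib.Analysis.Complex.Polynomial.Basic

/-!
# Lattices: scaling, `g₂, g₃` through `E₄, E₆`, every non-singular `(g₂, g₃)` occurs, refinements

The main results are `exists_periodPair` and `exists_refine`.
-/

noncomputable section

open UpperHalfPlane Filter Topology EisensteinSeries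
open ModularForm (E₄ E₆)
open scoped Real

local notation "Δ" => ModularForm.discriminant

namespace Fermat.HT.Ell

/-- The Eisenstein sums depend only on the lattice. -/
lemma periodPair_G_congr {L L' : PeriodPair} (h : L.lattice = L'.lattice) (n : ℕ) :
    L.G n = L'.G n := by
  unfold PeriodPair.G
  rw [h]

/-- The standard lattice `ℤ τ + ℤ`. -/
def tauPair (τ : ℍ) : PeriodPair where
  ω₁ := τ
  ω₂ := 1
  indep := by
    rw [LinearIndependent.pair_iff]
    intro a b h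
    have him := congrArg Complex.im h
    simp at him
    have ha : a = 0 := by
      rcases him with h | h
      · exact h
      · exact absurd h τ.im_ne_zero
    subst ha
    simpa using congrArg Complex.re h

/-- Scaling a lattice. -/
def scalePair (L : PeriodPair) (c : ℂ) (hc : c ≠ 0) : PeriodPair where
  ω₁ := c * L.ω₁
  ω₂ := c * L.ω₂
  indep := by
    have h := L.indep
    rw [LinearIndependent.pair_iff] at h ⊢
    intro a b hab
    refine h a b (mul_left_cancel₀ hc ?_)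
    rw [mul_zero, ← hab]
    simp only [Complex.real_smul]; ring

/-- The Eisenstein sums of a scaled lattice. -/
lemma G_scalePair (L : PeriodPair) (c : ℂ) (hc : c ≠ 0) (n : ℕ) :
    (scalePair L c hc).G n = (c ^ n)⁻¹ * L.G n := by
  have h : ∀ (M : PeriodPair), M.G n
      = ∑' x : ℤ × ℤ, (((x.1 : ℂ) * M.ω₁ + x.2 * M.ω₂) ^ n)⁻¹ := fun M ↦ by
    rw [PeriodPair.G, ← M.latticeEquivProd.symm.toEquiv.tsum_eq]
    simp [M.latticeEquiv_symm_apply]
  rw [h, h, ← tsum_mul_left]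
  congr 1 with x
  rw [← mul_inv, ← mul_pow]
  simp only [scalePair]
  ring

/-- The Eisenstein sums of `ℤ τ + ℤ` through normalised Eisenstein series. -/
lemma G_tauPair (τ : ℍ) {k : ℕ} (hk : 3 ≤ k) :
    (tauPair τ).G k = 2 * riemannZeta k * ModularForm.E hk τ := by
  rw [show ModularForm.E hk τ = (1 / 2 : ℂ) • eisensteinSeriesSIF (N := 1) 0 k τ from rfl,
    eisensteinSeriesSIF_apply 0 k τ, smul_eq_mul,
    show ∀ a b : ℂ, 2 * a * (1 / 2 * b) = a * b by intros; ring,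
    ← tsum_eisSummand_eq_riemannZeta_mul_eisensteinSeries hk τ, PeriodPair.G,
    ← (tauPair τ).latticeEquivProd.symm.toEquiv.tsum_eq, ← (finTwoArrowEquiv ℤ).symm.tsum_eq]
  refine tsum_congr fun x ↦ ?_
  simp only [LinearEquiv.coe_toEquiv, PeriodPair.latticeEquiv_symm_apply, eisSummand]
  simp [tauPair]

/-- `ζ(6) = π⁶/945`. -/
lemma riemannZeta_six : riemannZeta 6 = π ^ 6 / 945 := by
  have h := riemannZeta_two_mul_nat (k := 3) (by norm_num)
  have hb : bernoulli 6 = 1 / 42 := by decide +kernel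
  norm_num at h
  rw [h, hb]
  push_cast
  norm_num [Nat.factorial]
  ring

/-- `g₂` of `ℤ τ + ℤ` through `E₄`. -/
lemma g₂_tauPair (τ : ℍ) : (tauPair τ).g₂ = 4 * (π : ℂ) ^ 4 / 3 * E₄ τ := by
  rw [PeriodPair.g₂, G_tauPair τ (k := 4) (by norm_num)]
  rw [show ((4 : ℕ) : ℂ) = 4 by norm_num, riemannZeta_four]
  ring

/-- `g₃` of `ℤ τ + ℤ` through `E₆`. -/
lemma g₃_tauPair (τ : ℍ) : (tauPair τ).g₃ = 8 * (π : ℂ) ^ 6 / 27 * E₆ τ := by
  rw [PeriodPair.g₃, G_tauPair τ (k := 6) (by norm_num)]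
  rw [show ((6 : ℕ) : ℂ) = 6 by norm_num, riemannZeta_six]
  ring

/-- `g₂³ - 27 g₃²` of `ℤ τ + ℤ` through the discriminant form. -/
lemma disc_tauPair (τ : ℍ) :
    (tauPair τ).g₂ ^ 3 - 27 * (tauPair τ).g₃ ^ 2 = 4096 * (π : ℂ) ^ 12 * Δ τ := by
  rw [g₂_tauPair, g₃_tauPair, ModularForm.discriminant_eq_E₄_cube_sub_E₆_sq]
  ring

/-- `g₂` of a scaled lattice. -/
lemma g₂_scalePair (L : PeriodPair) (c : ℂ) (hc : c ≠ 0) :
    (scalePair L c hc).g₂ = (c ^ 4)⁻¹ * L.g₂ := by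
  rw [PeriodPair.g₂, PeriodPair.g₂, G_scalePair]; ring

/-- `g₃` of a scaled lattice. -/
lemma g₃_scalePair (L : PeriodPair) (c : ℂ) (hc : c ≠ 0) :
    (scalePair L c hc).g₃ = (c ^ 6)⁻¹ * L.g₃ := by
  rw [PeriodPair.g₃, PeriodPair.g₃, G_scalePair]; ring

/-- Every lattice is non-singular. -/
theorem disc_ne_zero (L : PeriodPair) : L.g₂ ^ 3 - 27 * L.g₃ ^ 2 ≠ 0 := by
  have h2 : L.ω₂ ≠ 0 := by simpa using L.indep.ne_zero (1 : Fin 2)
  have him : (L.ω₁ / L.ω₂).im ≠ 0 := by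
    intro him
    have := (LinearIndependent.pair_iff.1 L.indep) 1 (-(L.ω₁ / L.ω₂).re) ?_
    · exact one_ne_zero this.1
    have hre : ((L.ω₁ / L.ω₂).re : ℂ) = L.ω₁ / L.ω₂ := Complex.ext rfl (by simpa using him.symm)
    rw [Complex.real_smul, Complex.real_smul]
    push_cast
    rw [hre]; field_simp; ring
  -- a point of `ℍ` and a scalar
  obtain ⟨τ, hτ⟩ : ∃ τ : ℍ, L.lattice = (scalePair (tauPair τ) L.ω₂ h2).lattice := by
    rcases lt_or_gt_of_ne him with h | h
    · refine ⟨⟨-(L.ω₁ / L.ω₂), by simpa using h⟩, ?_⟩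
      simp only [PeriodPair.lattice, scalePair, tauPair, mul_one]
      rw [show L.ω₂ * -(L.ω₁ / L.ω₂) = -L.ω₁ by field_simp]
      rw [Submodule.span_insert, Submodule.span_insert]
      rw [← Set.neg_singleton, Submodule.span_neg]
    · refine ⟨⟨L.ω₁ / L.ω₂, h⟩, ?_⟩
      simp only [PeriodPair.lattice, scalePair, tauPair, mul_one]
      rw [show L.ω₂ * (L.ω₁ / L.ω₂) = L.ω₁ by field_simp]
  have e2 : L.g₂ = (scalePair (tauPair τ) L.ω₂ h2).g₂ := by
    rw [PeriodPair.g₂, PeriodPair.g₂, periodPair_G_congr hτ]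
  have e3 : L.g₃ = (scalePair (tauPair τ) L.ω₂ h2).g₃ := by
    rw [PeriodPair.g₃, PeriodPair.g₃, periodPair_G_congr hτ]
  rw [e2, e3, g₂_scalePair, g₃_scalePair]
  rw [show ((L.ω₂ ^ 4)⁻¹ * (tauPair τ).g₂) ^ 3 - 27 * ((L.ω₂ ^ 6)⁻¹ * (tauPair τ).g₃) ^ 2
    = (L.ω₂ ^ 12)⁻¹ * ((tauPair τ).g₂ ^ 3 - 27 * (tauPair τ).g₃ ^ 2) by field_simp, disc_tauPair]
  exact mul_ne_zero (inv_ne_zero (pow_ne_zero _ h2)) (mul_ne_zero (mul_ne_zero (by norm_num)
    (pow_ne_zero _ (Complex.ofReal_ne_zero.2 Real.pi_ne_zero)))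
      (ModularForm.discriminant_ne_zero τ))

/-- Every non-singular pair occurs as the invariants of a lattice. -/
theorem exists_periodPair (A B : ℂ) (h : A ^ 3 - 27 * B ^ 2 ≠ 0) :
    ∃ L : PeriodPair, L.g₂ = A ∧ L.g₃ = B := by
  -- A lattice `ℤ τ + ℤ` with the same `j`.
  obtain ⟨τ, hτ⟩ := MC.exists_jA_eq (1728 * A ^ 3 / (A ^ 3 - 27 * B ^ 2))
  set a := (tauPair τ).g₂ with ha
  set b := (tauPair τ).g₃ with hb
  have hd := disc_ne_zero (tauPair τ)
  rw [← ha, ← hb] at hd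
  have hj : a ^ 3 * (A ^ 3 - 27 * B ^ 2) = A ^ 3 * (a ^ 3 - 27 * b ^ 2) := by
    have hΔ := ModularForm.discriminant_ne_zero τ
    have e := hτ
    rw [MC.jA, div_eq_div_iff hΔ h] at e
    rw [ha, hb, g₂_tauPair, g₃_tauPair]
    rw [ModularForm.discriminant_eq_E₄_cube_sub_E₆_sq] at e
    linear_combination (64 * (π : ℂ) ^ 12 / 27) * e
  -- Some scaling matches `g₂`, and `g₃` up to sign.
  have hcase : ∃ (c : ℂ) (hc : c ≠ 0),
      (c ^ 4)⁻¹ * a = A ∧ ((c ^ 6)⁻¹ * b = B ∨ (c ^ 6)⁻¹ * b = -B) := by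
    by_cases hA : A = 0
    · have ha0 : a = 0 := by
        subst hA
        have : a ^ 3 * (-27 * B ^ 2) = 0 := by linear_combination hj
        exact eq_zero_of_pow_eq_zero ((mul_eq_zero.1 this).resolve_right (by simpa using h))
      have hb0 : b ≠ 0 := fun h0 ↦ hd (by rw [ha0, h0]; ring)
      have hB : B ≠ 0 := fun h0 ↦ h (by rw [hA, h0]; ring)
      obtain ⟨c, hc⟩ := IsAlgClosed.exists_pow_nat_eq (b / B) (show 0 < 6 by norm_num)
      have hc0 : c ≠ 0 := fun h0 ↦ div_ne_zero hb0 hB (by rw [← hc, h0]; ring)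
      refine ⟨c, hc0, by rw [ha0, hA, mul_zero], Or.inl ?_⟩
      rw [hc, inv_div, div_mul_cancel₀ _ hb0]
    · have ha0 : a ≠ 0 := fun h0 ↦ by
        rw [h0] at hj
        have : A ^ 3 * b ^ 2 = 0 := by linear_combination (1 / 27) * hj
        rcases mul_eq_zero.1 this with h1 | h1
        · exact hA (eq_zero_of_pow_eq_zero h1)
        · exact hd (by rw [h0, eq_zero_of_pow_eq_zero h1]; ring)
      obtain ⟨c, hc⟩ := IsAlgClosed.exists_pow_nat_eq (a / A) (show 0 < 4 by norm_num)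
      have hc0 : c ≠ 0 := fun h0 ↦ div_ne_zero ha0 hA (by rw [← hc, h0]; ring)
      refine ⟨c, hc0, by rw [hc, inv_div, div_mul_cancel₀ _ ha0], ?_⟩
      rw [← sq_eq_sq_iff_eq_or_eq_neg]
      rw [mul_pow, inv_pow, ← pow_mul, show c ^ (6 * 2) = (c ^ 4) ^ 3 by ring, hc, div_pow, inv_div]
      field_simp
      linear_combination (1 / 27) * hj
  -- A further scaling by `i` corrects the sign.
  obtain ⟨c, hc, h2, h3 | h3⟩ := hcase
  · exact ⟨scalePair (tauPair τ) c hc, by rw [g₂_scalePair, ← ha, h2],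
      by rw [g₃_scalePair, ← hb, h3]⟩
  · refine ⟨scalePair (tauPair τ) (Complex.I * c) (mul_ne_zero Complex.I_ne_zero hc), ?_, ?_⟩
    · rw [g₂_scalePair, ← ha, mul_pow, Complex.I_pow_four, one_mul, h2]
    · rw [g₃_scalePair, ← hb, mul_pow, show Complex.I ^ 6 = -1 by simp [pow_succ, Complex.I_mul_I],
        neg_one_mul, inv_neg, neg_mul, h3, neg_neg]

/-- Two lattice vectors span the lattice once their span contains its two periods. -/
theorem span_pair_eq {L : PeriodPair} {u v : ℂ} (hu : u ∈ L.lattice) (hv : v ∈ L.lattice)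
    (h1 : L.ω₁ ∈ Submodule.span ℤ {u, v}) (h2 : L.ω₂ ∈ Submodule.span ℤ {u, v}) :
    Submodule.span ℤ {u, v} = L.lattice :=
  le_antisymm (Submodule.span_le.2 (by simp [Set.insert_subset_iff, hu, hv]))
    (Submodule.span_le.2 (by simp [Set.insert_subset_iff, h1, h2]))

/-- A basis `w₁, w₂` of a lattice with `w₁, w₂ / n` spanning the lattice refined by a point of
order `n`. -/
theorem exists_adapted_pair (L : PeriodPair) {n : ℕ} (hn : n.Prime) {c : ℂ} (hc : c ∉ L.lattice)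
    (hnc : (n : ℂ) * c ∈ L.lattice) :
    ∃ w₁ w₂ : ℂ, LinearIndependent ℝ ![w₁, w₂] ∧ Submodule.span ℤ {w₁, w₂} = L.lattice ∧
      Submodule.span ℤ {w₁, w₂ / n} = L.lattice ⊔ Submodule.span ℤ {c} := by
  obtain ⟨a, b, hab⟩ := PeriodPair.mem_lattice.1 hnc
  have hn0 : (n : ℂ) ≠ 0 := Nat.cast_ne_zero.2 hn.ne_zero
  set M := L.lattice ⊔ Submodule.span ℤ {c} with hM
  have hc' : c ∈ M := Submodule.mem_sup_right (Submodule.mem_span_singleton_self c)
  have hle : L.lattice ≤ M := le_sup_left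
  have hfin : ∀ {u v : ℂ}, u ∈ M → v ∈ M →
      L.ω₁ ∈ Submodule.span ℤ {u, v} → L.ω₂ ∈ Submodule.span ℤ {u, v} →
      c ∈ Submodule.span ℤ {u, v} → Submodule.span ℤ {u, v} = M := by
    intro u v hu hv h1 h2 h3
    refine le_antisymm (Submodule.span_le.2 (by simp [Set.insert_subset_iff, hu, hv])) ?_
    rw [hM]
    exact sup_le (Submodule.span_le.2 (by simp [Set.insert_subset_iff, h1, h2]))
      (Submodule.span_le.2 (by simpa using h3))
  -- `n c = a ω₁ + b ω₂`: take `(ω₁, ω₂)` if `n ∣ a`, else `(ω₂, ω₁ + s b ω₂)` with `s a ≡ 1`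
  by_cases hna : (n : ℤ) ∣ a
  · obtain ⟨a', rfl⟩ := hna
    have hnb : ¬(n : ℤ) ∣ b := by
      rintro ⟨b', rfl⟩
      refine hc (PeriodPair.mem_lattice.2 ⟨a', b', mul_left_cancel₀ hn0 ?_⟩)
      rw [← hab]; push_cast; ring
    obtain ⟨s, t, hst⟩ : IsCoprime b (n : ℤ) :=
      ((Nat.prime_iff_prime_int.1 hn).coprime_iff_not_dvd.2 hnb).symm
    have hcast : (s : ℂ) * b + t * n = 1 := by exact_mod_cast congrArg (Int.cast : ℤ → ℂ) hst
    refine ⟨L.ω₁, L.ω₂, L.indep, rfl, hfin (hle L.ω₁_mem_lattice) ?_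
      (Submodule.subset_span (by simp)) ?_ ?_⟩
    · have : L.ω₂ / n = s • c + (-(s * a')) • L.ω₁ + t • L.ω₂ := by
        rw [zsmul_eq_mul, zsmul_eq_mul, zsmul_eq_mul]
        push_cast at hab ⊢
        field_simp
        linear_combination -(L.ω₂) * hcast + (s : ℂ) * hab
      rw [this]
      exact add_mem (add_mem (zsmul_mem hc' _) (zsmul_mem (hle L.ω₁_mem_lattice) _))
        (zsmul_mem (hle L.ω₂_mem_lattice) _)
    · rw [Submodule.mem_span_pair]
      exact ⟨0, n, by simp [mul_div_cancel₀ _ hn0]⟩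
    · rw [Submodule.mem_span_pair]
      refine ⟨a', b, ?_⟩
      rw [zsmul_eq_mul, zsmul_eq_mul]
      push_cast at hab
      field_simp
      linear_combination hab
  · obtain ⟨s, t, hst⟩ : IsCoprime a (n : ℤ) :=
      ((Nat.prime_iff_prime_int.1 hn).coprime_iff_not_dvd.2 hna).symm
    have hcast : (s : ℂ) * a + t * n = 1 := by exact_mod_cast congrArg (Int.cast : ℤ → ℂ) hst
    refine ⟨L.ω₂, L.ω₁ + (s * b) • L.ω₂, ?_, ?_, hfin (hle L.ω₂_mem_lattice) ?_ ?_
      (Submodule.subset_span (by simp)) ?_⟩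
    · rw [LinearIndependent.pair_iff]
      intro x y hxy
      have h := LinearIndependent.pair_iff.1 L.indep y (x + y * (s * b : ℤ)) (by
        simp only [Complex.real_smul, zsmul_eq_mul] at hxy ⊢
        push_cast at hxy ⊢
        linear_combination hxy)
      obtain ⟨hy, hx⟩ := h
      subst hy
      exact ⟨by simpa using hx, rfl⟩
    · refine span_pair_eq L.ω₂_mem_lattice
        (add_mem L.ω₁_mem_lattice (zsmul_mem L.ω₂_mem_lattice _)) ?_
          (Submodule.subset_span (by simp))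
      rw [Submodule.mem_span_pair]
      exact ⟨-(s * b), 1, by rw [one_smul]; simp only [zsmul_eq_mul]; push_cast; ring⟩
    · have : (L.ω₁ + (s * b) • L.ω₂) / n = s • c + t • L.ω₁ := by
        rw [zsmul_eq_mul, zsmul_eq_mul, zsmul_eq_mul]
        push_cast
        field_simp
        linear_combination -(L.ω₁) * hcast + (s : ℂ) * hab
      rw [this]
      exact add_mem (zsmul_mem hc' _) (zsmul_mem (hle L.ω₁_mem_lattice) _)
    · rw [Submodule.mem_span_pair]
      refine ⟨-(s * b), n, ?_⟩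
      simp only [zsmul_eq_mul]
      push_cast
      field_simp
      ring
    · rw [Submodule.mem_span_pair]
      refine ⟨t * b, a, ?_⟩
      simp only [zsmul_eq_mul]
      push_cast
      field_simp
      linear_combination (L.ω₂ * b) * hcast + hab

/-- Adjoining a point of prime order to a lattice. -/
theorem exists_refine (L : PeriodPair) {n : ℕ} (hn : n.Prime) {c : ℂ} (hc : c ∉ L.lattice)
    (hnc : (n : ℂ) * c ∈ L.lattice) :
    ∃ L' : PeriodPair, L'.lattice = L.lattice ⊔ Submodule.span ℤ {c} := by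
  obtain ⟨w₁, w₂, hi, -, hM⟩ := exists_adapted_pair L hn hc hnc
  refine ⟨⟨w₁, w₂ / n, LinearIndependent.pair_iff.2 fun x y hxy => ?_⟩, hM⟩
  have hn0 : (n : ℝ) ≠ 0 := Nat.cast_ne_zero.2 hn.ne_zero
  have h := LinearIndependent.pair_iff.1 hi x (y / n) (by
    simp only [Complex.real_smul] at hxy ⊢
    push_cast
    linear_combination hxy)
  exact ⟨h.1, (div_eq_zero_iff.1 h.2).resolve_right hn0⟩

end Fermat.HT.Ell
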