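import Fermat.Agent.HT.Ell.Basic
import Mathlib.Analysis.Complex.Convex
import Mathlib.AlgebraicGeometry.EllipticCurve.Affine.Point

/-!
# Uniformisation `ℂ ⧸ Λ ≅ E(ℂ)` for `E : y² = x³ - (g₂/4) x - g₃/4`

The parametrisation is `ptHom`, with kernel the lattice and surjective by `ptHom_surjective`.
-/

noncomputable section

open Filter Topology Complex Set
open PeriodPair
open WeierstrassCurve WeierstrassCurve.Affine

namespace Fermat.HT.Ell

variable (L : PeriodPair)

/-- The curve parametrised by `(℘, ℘'/2)`. -/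
def curve : Affine ℂ := ⟨0, 0, 0, -L.g₂ / 4, -L.g₃ / 4⟩

/-- The discriminant of the curve of the lattice is `g₂³ - 27 g₃²`. -/
lemma curve_Δ : (curve L : WeierstrassCurve ℂ).Δ = L.g₂ ^ 3 - 27 * L.g₃ ^ 2 := by
  simp only [curve, WeierstrassCurve.Δ, b₂, b₄, b₆, b₈]
  ring

/-- The parametrised point satisfies the equation of the curve. -/
lemma equation_pt {z : ℂ} (hz : z ∉ L.lattice) :
    (curve L).Equation (℘[L] z) (℘'[L] z / 2) := by
  rw [equation_iff]
  simp only [curve]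
  linear_combination (1 / 4) * L.derivWeierstrassP_sq z hz

variable (hΔ : L.g₂ ^ 3 - 27 * L.g₃ ^ 2 ≠ 0)

include hΔ in
/-- A point of the curve is nonsingular when the discriminant is nonzero. -/
lemma nonsingular_of_equation {x y : ℂ} (h : (curve L).Equation x y) :
    (curve L).Nonsingular x y :=
  (equation_iff_nonsingular_of_Δ_ne_zero (by rwa [curve_Δ])).1 h

open scoped Classical in
/-- `z ↦ (℘ z, ℘' z / 2)`. -/
def pt (z : ℂ) : (curve L).Point :=
  if hz : z ∈ L.lattice then 0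
  else .some _ _ (nonsingular_of_equation L hΔ (equation_pt L hz))

/-- Lattice points go to the point at infinity. -/
lemma pt_of_mem {z : ℂ} (hz : z ∈ L.lattice) : pt L hΔ z = 0 := dif_pos hz

/-- The image of a point outside the lattice. -/
lemma pt_of_notMem {z : ℂ} (hz : z ∉ L.lattice) :
    pt L hΔ z = .some _ _ (nonsingular_of_equation L hΔ (equation_pt L hz)) := dif_neg hz

/-- The parametrisation is periodic. -/
lemma pt_add_lattice (z : ℂ) {l : ℂ} (hl : l ∈ L.lattice) : pt L hΔ (z + l) = pt L hΔ z := by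
  by_cases hz : z ∈ L.lattice
  · rw [pt_of_mem L hΔ hz, pt_of_mem L hΔ (add_mem hz hl)]
  · have hzl : z + l ∉ L.lattice := fun h ↦ hz (by simpa using sub_mem h hl)
    rw [pt_of_notMem L hΔ hz, pt_of_notMem L hΔ hzl]
    congr 1
    · exact L.weierstrassP_add_coe z ⟨l, hl⟩
    · rw [show ℘'[L] (z + l) = ℘'[L] z from L.derivWeierstrassP_add_coe z ⟨l, hl⟩]

/-- The parametrisation commutes with negation. -/
lemma pt_neg (z : ℂ) : pt L hΔ (-z) = -pt L hΔ z := by
  by_cases hz : z ∈ L.lattice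
  · rw [pt_of_mem L hΔ hz, pt_of_mem L hΔ (neg_mem hz), neg_zero]
  · have hz' : -z ∉ L.lattice := fun h ↦ hz (by simpa using neg_mem h)
    rw [pt_of_notMem L hΔ hz, pt_of_notMem L hΔ hz', Point.neg_some]
    congr 1
    · exact L.weierstrassP_neg z
    · simp [negY, curve, L.derivWeierstrassP_neg, neg_div]

/-! ## Asymptotics at `0` -/

/-- Points near `0`, other than `0`, are outside the lattice. -/
lemma eventually_notMem : ∀ᶠ z in 𝓝[≠] (0 : ℂ), z ∉ L.lattice := by
  filter_upwards [self_mem_nhdsWithin,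
    mem_nhdsWithin_of_mem_nhds (L.compl_lattice_sdiff_singleton_mem_nhds 0)] with z hz hz'
  simp_all

/-- `z² ℘ z` tends to `1` at `0`. -/
lemma tendsto_sq_mul_weierstrassP :
    Tendsto (fun z ↦ z ^ 2 * ℘[L] z) (𝓝[≠] 0) (𝓝 1) := by
  have hA : AnalyticAt ℂ (fun z ↦ z ^ 2 * ℘[L - (0 : ℂ)] z + 1) 0 := by
    have : AnalyticAt ℂ ℘[L - (0 : ℂ)] 0 := L.analyticAt_weierstrassPExcept 0
    fun_prop
  have h := hA.continuousAt.tendsto.mono_left (nhdsWithin_le_nhds (s := ({0}ᶜ : Set ℂ)))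
  simp only [ne_eq, OfNat.ofNat_ne_zero, not_false_eq_true, zero_pow, zero_mul, zero_add] at h
  refine h.congr' ?_
  filter_upwards [self_mem_nhdsWithin] with z (hz : z ≠ 0)
  have := L.ite_eq_one_sub_sq_mul_weierstrassP 0 (zero_mem _) z
  simpa [hz] using this.symm

/-- `z³ ℘' z / 2` tends to `-1` at `0`. -/
lemma tendsto_cube_mul_derivWeierstrassP :
    Tendsto (fun z ↦ z ^ 3 * (℘'[L] z / 2)) (𝓝[≠] 0) (𝓝 (-1)) := by
  have hA : AnalyticAt ℂ (fun z ↦ z ^ 3 * (℘'[L - (0 : ℂ)] z / 2) - 1) 0 := by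
    have : AnalyticAt ℂ ℘'[L - (0 : ℂ)] 0 := L.analyticAt_derivWeierstrassPExcept 0
    fun_prop
  have h := hA.continuousAt.tendsto.mono_left (nhdsWithin_le_nhds (s := ({0}ᶜ : Set ℂ)))
  simp only [ne_eq, OfNat.ofNat_ne_zero, not_false_eq_true, zero_pow, zero_mul, zero_sub] at h
  refine h.congr' ?_
  filter_upwards [self_mem_nhdsWithin] with z (hz : z ≠ 0)
  have hd := L.derivWeierstrassPExcept_def ⟨0, zero_mem _⟩ z
  simp only [sub_zero] at hd
  rw [hd]
  field_simp
  ring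

/-- Near `0`, `℘` avoids any given value. -/
lemma eventually_weierstrassP_ne (c : ℂ) : ∀ᶠ z in 𝓝[≠] (0 : ℂ), ℘[L] z ≠ c := by
  have h : Tendsto (fun z ↦ z ^ 2 * ℘[L] z - z ^ 2 * c) (𝓝[≠] 0) (𝓝 1) := by
    have h2 : Tendsto (fun z : ℂ ↦ z ^ 2 * c) (𝓝[≠] 0) (𝓝 0) := by
      have : Continuous fun z : ℂ ↦ z ^ 2 * c := by fun_prop
      simpa using (this.tendsto 0).mono_left (nhdsWithin_le_nhds (s := ({0}ᶜ : Set ℂ)))
    simpa using (tendsto_sq_mul_weierstrassP L).sub h2
  filter_upwards [h.eventually_ne one_ne_zero] with z hz hc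
  exact hz (by rw [hc, sub_self])

/-- Near a point off the lattice `℘` takes a given value only at isolated points. -/
lemma eventually_weierstrassP_add_ne {w : ℂ} (hw : w ∉ L.lattice) (c : ℂ) :
    ∀ᶠ u in 𝓝[≠] (0 : ℂ), ℘[L] (w + u) ≠ c := by
  have hAw : AnalyticAt ℂ (fun u ↦ ℘[L] (w + u) - c) 0 := by
    have : AnalyticAt ℂ (fun u ↦ ℘[L] (w + u)) 0 :=
      AnalyticAt.comp (g := ℘[L]) (by simpa using L.analyticOnNhd_weierstrassP w hw) (by fun_prop)
    fun_prop
  rcases hAw.eventually_eq_zero_or_eventually_ne_zero with h | h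
  · exfalso
    have hconn : IsPreconnected (L.lattice : Set ℂ)ᶜ := by
      have : Countable L.lattice := L.latticeEquivProd.toEquiv.countable_iff.mpr inferInstance
      exact (Set.Countable.isConnected_compl_of_one_lt_rank (by simp)
        (Set.to_countable _)).isPreconnected
    have ht : Tendsto (fun u : ℂ ↦ u - w) (𝓝 w) (𝓝 0) := by
      have : Continuous fun u : ℂ ↦ u - w := by fun_prop
      simpa using this.tendsto w
    have hev : (fun u ↦ ℘[L] u - c) =ᶠ[𝓝 w] 0 := by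
      filter_upwards [ht.eventually h] with u hu
      simpa using hu
    have hall := AnalyticOnNhd.eqOn_zero_of_preconnected_of_eventuallyEq_zero
      (f := fun u ↦ ℘[L] u - c) (fun u hu ↦ by
        have := L.analyticOnNhd_weierstrassP u hu; fun_prop) hconn hw hev
    refine not_eventually_const L c ?_
    filter_upwards [eventually_notMem L] with u hu
    exact sub_eq_zero.1 (hall hu)
  · filter_upwards [h] with u hu hc
    exact hu (by rw [hc, sub_self])

/-! ## The secant identity -/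

/-- `(℘'/2)² = ℘³ - (g₂/4)℘ - g₃/4`. -/
lemma derivWeierstrassP_half_sq {z : ℂ} (hz : z ∉ L.lattice) :
    (℘'[L] z / 2) ^ 2 = ℘[L] z ^ 3 - L.g₂ / 4 * ℘[L] z - L.g₃ / 4 := by
  linear_combination (1 / 4) * L.derivWeierstrassP_sq z hz

/-- The derivative of `℘'/2`. -/
lemma hasDerivAt_derivWeierstrassP_half {z : ℂ} (hz : z ∉ L.lattice) :
    HasDerivAt (fun v ↦ ℘'[L] v / 2) (3 * ℘[L] z ^ 2 - L.g₂ / 4) z :=
  ((hasDerivAt_derivWeierstrassP L hz).div_const 2).congr_deriv (by ring)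

/-- Where both points `u` and `s - u` of a chord are finite. -/
def secantDomain (s : ℂ) : Set ℂ :=
  (L.lattice : Set ℂ)ᶜ ∩ (fun u ↦ s - u) ⁻¹' (L.lattice : Set ℂ)ᶜ

/-- The slope of the chord through the points of `u` and `s - u`. -/
def secantSlope (s u : ℂ) : ℂ :=
  (℘'[L] u / 2 - ℘'[L] (s - u) / 2) / (℘[L] u - ℘[L] (s - u))

/-- The abscissa of the third point of the chord. -/
def secantX (s u : ℂ) : ℂ := secantSlope L s u ^ 2 - ℘[L] u - ℘[L] (s - u)

/-- The reflected ordinate of the third point, with the abscissa replaced by `℘ s`. -/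
def secantY (s u : ℂ) : ℂ :=
  -(secantSlope L s u * (℘[L] s - ℘[L] (s - u)) + ℘'[L] (s - u) / 2)

/-- The domain of the chord construction is connected, being the complement of a countable set. -/
lemma isPreconnected_secantDomain (s : ℂ) : IsPreconnected (secantDomain L s) := by
  have : Countable L.lattice := L.latticeEquivProd.toEquiv.countable_iff.mpr inferInstance
  have : secantDomain L s = ((L.lattice : Set ℂ) ∪ (fun u ↦ s - u) ⁻¹' (L.lattice : Set ℂ))ᶜ := by
    ext; simp [secantDomain]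
  rw [this]
  refine (Set.Countable.isConnected_compl_of_one_lt_rank (by simp) ?_).isPreconnected
  refine (Set.to_countable _).union ((Set.to_countable _).preimage ?_)
  exact fun a b h ↦ by simpa using h

/-- The derivatives of the second point of the chord. -/
lemma hasDerivAt_secant_right {s u : ℂ} (hu : u ∈ secantDomain L s) :
    HasDerivAt (fun v ↦ ℘[L] (s - v)) (-(2 * (℘'[L] (s - u) / 2))) u ∧
      HasDerivAt (fun v ↦ ℘'[L] (s - v) / 2) (-(3 * ℘[L] (s - u) ^ 2 - L.g₂ / 4)) u := by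
  constructor
  · have := (hasDerivAt_weierstrassP L hu.2).comp u ((hasDerivAt_id u).const_sub s)
    simpa [mul_div_cancel₀, Function.comp_def] using this
  · have := ((hasDerivAt_derivWeierstrassP L hu.2).comp u
      ((hasDerivAt_id u).const_sub s)).div_const 2
    exact this.congr_deriv (by ring)

/-- The derivative of the slope of the chord. -/
lemma hasDerivAt_secantSlope {s u : ℂ} (hu : u ∈ secantDomain L s)
    (hd : ℘[L] u - ℘[L] (s - u) ≠ 0) :
    HasDerivAt (secantSlope L s) (℘[L] u - ℘[L] (s - u)) u := by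
  refine (((hasDerivAt_derivWeierstrassP_half L hu.1).fun_sub
    (hasDerivAt_secant_right L hu).2).fun_div
    ((hasDerivAt_weierstrassP L hu.1).fun_sub (hasDerivAt_secant_right L hu).1) hd).congr_deriv ?_
  rw [div_eq_iff (pow_ne_zero _ hd)]
  linear_combination (-2) * derivWeierstrassP_half_sq L hu.1
    + 2 * derivWeierstrassP_half_sq L hu.2

/-- The abscissa of the third point is locally constant. -/
lemma hasDerivAt_secantX {s u : ℂ} (hu : u ∈ secantDomain L s)
    (hd : ℘[L] u - ℘[L] (s - u) ≠ 0) : HasDerivAt (secantX L s) 0 u := by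
  refine ((((hasDerivAt_secantSlope L hu hd).fun_pow 2).fun_sub
    (hasDerivAt_weierstrassP L hu.1)).fun_sub (hasDerivAt_secant_right L hu).1).congr_deriv ?_
  push_cast
  simp only [secantSlope]
  field_simp
  ring

/-- Where the abscissa is `℘ s`, the ordinate of the third point is locally constant. -/
lemma hasDerivAt_secantY {s u : ℂ} (hu : u ∈ secantDomain L s)
    (hd : ℘[L] u - ℘[L] (s - u) ≠ 0) (hX : secantX L s u = ℘[L] s) :
    HasDerivAt (secantY L s) 0 u := by
  refine (((hasDerivAt_secantSlope L hu hd).fun_mul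
    ((hasDerivAt_secant_right L hu).1.const_sub (℘[L] s))).fun_add
      (hasDerivAt_secant_right L hu).2).fun_neg.congr_deriv ?_
  rw [← hX]
  simp only [secantX, secantSlope]
  field_simp
  linear_combination (-16) * derivWeierstrassP_half_sq L hu.1
    + 16 * derivWeierstrassP_half_sq L hu.2

/-- The second point of the chord tends to the point of `s`. -/
lemma tendsto_secant_right {s : ℂ} (hs : s ∉ L.lattice) :
    Tendsto (fun u ↦ ℘[L] (s - u)) (𝓝[≠] 0) (𝓝 (℘[L] s)) ∧
      Tendsto (fun u ↦ ℘'[L] (s - u) / 2) (𝓝[≠] 0) (𝓝 (℘'[L] s / 2)) := by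
  constructor
  · have hA : ContinuousAt (fun u ↦ ℘[L] (s - u)) 0 := ContinuousAt.comp (g := ℘[L])
      (by simpa using (L.analyticOnNhd_weierstrassP s hs).continuousAt) (by fun_prop)
    simpa using hA.tendsto.mono_left (nhdsWithin_le_nhds (s := ({0}ᶜ : Set ℂ)))
  · have hA : ContinuousAt (fun u ↦ ℘'[L] (s - u) / 2) 0 := (ContinuousAt.comp (g := ℘'[L])
      (by simpa using (L.analyticOnNhd_derivWeierstrassP s hs).continuousAt)
      (by fun_prop)).div_const 2
    simpa using hA.tendsto.mono_left (nhdsWithin_le_nhds (s := ({0}ᶜ : Set ℂ)))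

/-- The denominator of the slope has a double pole at `0`. -/
lemma tendsto_sq_mul_secant_den {s : ℂ} (hs : s ∉ L.lattice) :
    Tendsto (fun u ↦ u ^ 2 * (℘[L] u - ℘[L] (s - u))) (𝓝[≠] 0) (𝓝 1) := by
  have hid : Tendsto (fun u : ℂ ↦ u) (𝓝[≠] 0) (𝓝 0) := nhdsWithin_le_nhds
  simpa [mul_sub] using (tendsto_sq_mul_weierstrassP L).sub
    ((hid.pow 2).mul (tendsto_secant_right L hs).1)

/-- Near `0` the chord is defined and not vertical. -/
lemma eventually_mem_secantDomain {s : ℂ} (hs : s ∉ L.lattice) :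
    ∀ᶠ u in 𝓝[≠] (0 : ℂ), u ∈ secantDomain L s ∧ ℘[L] u - ℘[L] (s - u) ≠ 0 := by
  have hc : Tendsto (fun u : ℂ ↦ s - u) (𝓝[≠] 0) (𝓝 s) := by
    have : Continuous fun u : ℂ ↦ s - u := by fun_prop
    simpa using (this.tendsto 0).mono_left (nhdsWithin_le_nhds (s := ({0}ᶜ : Set ℂ)))
  filter_upwards [eventually_notMem L, hc.eventually (L.isClosed_lattice.isOpen_compl.mem_nhds hs),
    (tendsto_sq_mul_secant_den L hs).eventually_ne one_ne_zero] with u h1 h2 h3
  exact ⟨⟨h1, h2⟩, right_ne_zero_of_mul h3⟩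

/-- The abscissa of the third point tends to `℘ s` at `0`. -/
lemma tendsto_secantX {s : ℂ} (hs : s ∉ L.lattice) :
    Tendsto (secantX L s) (𝓝[≠] 0) (𝓝 (℘[L] s)) := by
  obtain ⟨hcx₂, hcy₂⟩ := tendsto_secant_right L hs
  have hid : Tendsto (fun u : ℂ ↦ u) (𝓝[≠] 0) (𝓝 0) := nhdsWithin_le_nhds
  have hp₁ := tendsto_sq_mul_weierstrassP L
  have hq₁ := tendsto_cube_mul_derivWeierstrassP L
  have hnum := ((((((hp₁.const_mul (-L.g₂ / 4)).mul (hid.pow 2)).add
      ((hid.pow 4).const_mul (-L.g₃ / 4))).sub ((hq₁.const_mul 2).mul (hid.mul hcy₂))).add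
      ((hcy₂.pow 2).mul (hid.pow 4))).add (((hp₁.pow 2).const_mul 2).mul hcx₂)).sub
      ((hp₁.mul (hcx₂.pow 2)).mul (hid.pow 2))
  have h := (hnum.div ((tendsto_sq_mul_secant_den L hs).pow 2) (by norm_num)).sub hcx₂
  norm_num at h
  rw [show 2 * ℘[L] s - ℘[L] s = ℘[L] s by ring] at h
  refine h.congr' ?_
  filter_upwards [eventually_mem_secantDomain L hs, self_mem_nhdsWithin] with u hu (hu0 : u ≠ 0)
  obtain ⟨hU, hd⟩ := hu
  simp only [secantX, secantSlope]
  field_simp
  linear_combination (-16) * derivWeierstrassP_half_sq L hU.1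

/-- The ordinate of the third point tends to `℘' s / 2` at `0`. -/
lemma tendsto_secantY {s : ℂ} (hs : s ∉ L.lattice) :
    Tendsto (secantY L s) (𝓝[≠] 0) (𝓝 (℘'[L] s / 2)) := by
  obtain ⟨-, hcy₂⟩ := tendsto_secant_right L hs
  have hid : Tendsto (fun u : ℂ ↦ u) (𝓝[≠] 0) (𝓝 0) := nhdsWithin_le_nhds
  have hslope : Tendsto (fun u ↦ (℘[L] s - ℘[L] (s - u)) / u) (𝓝[≠] 0) (𝓝 (℘'[L] s)) := by
    have hd : HasDerivAt (fun u ↦ ℘[L] (s - u)) (-℘'[L] s) 0 := by
      have := (hasDerivAt_weierstrassP L (z := s - 0) (by simpa using hs)).comp (0 : ℂ)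
        ((hasDerivAt_id (0 : ℂ)).const_sub s)
      simpa [Function.comp_def] using this
    have h := hd.tendsto_slope.neg
    rw [neg_neg] at h
    refine h.congr fun u ↦ ?_
    simp [slope_def_field]
    ring
  have hzl : Tendsto (fun u ↦ (u ^ 3 * (℘'[L] u / 2) - u ^ 3 * (℘'[L] (s - u) / 2)) /
      (u ^ 2 * (℘[L] u - ℘[L] (s - u)))) (𝓝[≠] 0) (𝓝 (-1)) := by
    have h := ((tendsto_cube_mul_derivWeierstrassP L).sub ((hid.pow 3).mul hcy₂)).div
      (tendsto_sq_mul_secant_den L hs) one_ne_zero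
    simpa [Pi.div_apply] using! h
  have h := ((hzl.mul hslope).add hcy₂).neg
  rw [show -(-1 * ℘'[L] s + ℘'[L] s / 2) = ℘'[L] s / 2 by ring] at h
  refine h.congr' ?_
  filter_upwards [eventually_mem_secantDomain L hs, self_mem_nhdsWithin] with u hu (hu0 : u ≠ 0)
  have := hu.2
  simp only [secantY, secantSlope]
  field_simp

omit L in
/-- A function with derivative `0` on a connected open set accumulating at `0` is equal to its
limit at `0`. -/
lemma eqOn_of_hasDerivAt_zero {f : ℂ → ℂ} {S : Set ℂ} {c : ℂ} (hSo : IsOpen S)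
    (hSc : IsPreconnected S) (hS0 : S ⊆ {0}ᶜ) [(𝓝[S] (0 : ℂ)).NeBot]
    (hf : ∀ u ∈ S, HasDerivAt f 0 u) (hlim : Tendsto f (𝓝[≠] 0) (𝓝 c)) :
    ∀ u ∈ S, f u = c := by
  obtain ⟨a, ha⟩ := hSo.exists_eq_add_of_deriv_eq (g := fun _ ↦ (0 : ℂ)) hSc
    (fun v hv ↦ (hf v hv).differentiableAt.differentiableWithinAt)
    (by fun_prop) (fun v hv ↦ by simp [(hf v hv).deriv])
  have hac : a = c := tendsto_nhds_unique
    ((tendsto_const_nhds (x := a)).congr' (eventually_of_mem self_mem_nhdsWithin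
      fun v hv ↦ by simpa using (ha hv).symm)) (hlim.mono_left (nhdsWithin_mono _ hS0))
  intro u hu
  simpa [hac] using ha hu

/-- The third point of the chord is the point of `s`, on an open set. -/
lemma exists_isOpen_secant_eq {s : ℂ} (hs : s ∉ L.lattice) :
    ∃ S : Set ℂ, IsOpen S ∧ S.Nonempty ∧ ∀ u ∈ S, u ∈ secantDomain L s ∧
      ℘[L] u - ℘[L] (s - u) ≠ 0 ∧ secantX L s u = ℘[L] s ∧ secantY L s u = ℘'[L] s / 2 := by
  obtain ⟨r, hr, hball⟩ := Metric.mem_nhdsWithin_iff.1 (eventually_mem_secantDomain L hs)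
  let S : Set ℂ := Metric.ball 0 r ∩ {u | 0 < u.re}
  have hSo : IsOpen S := Metric.isOpen_ball.inter (isOpen_lt continuous_const continuous_re)
  have hSc : IsPreconnected S :=
    ((convex_ball 0 r).inter (convex_halfSpace_re_gt 0)).isPreconnected
  have hS0 : S ⊆ {0}ᶜ := fun u hu h0 ↦ by simp_all [S]
  have hS : ∀ u ∈ S, u ∈ secantDomain L s ∧ ℘[L] u - ℘[L] (s - u) ≠ 0 :=
    fun u hu ↦ hball ⟨hu.1, hS0 hu⟩
  have : (𝓝[S] (0 : ℂ)).NeBot := by
    rw [← mem_closure_iff_nhdsWithin_neBot, Metric.mem_closure_iff]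
    intro ε hε
    refine ⟨((min ε r / 2 : ℝ) : ℂ), ⟨?_, ?_⟩, ?_⟩
    · rw [Metric.mem_ball, dist_zero_right, Complex.norm_real, Real.norm_eq_abs,
        abs_of_pos (by positivity)]
      have := min_le_right ε r; linarith
    · simp [hε, hr]
    · rw [dist_zero_left, Complex.norm_real, Real.norm_eq_abs, abs_of_pos (by positivity)]
      have := min_le_left ε r; linarith
  have hX := eqOn_of_hasDerivAt_zero hSo hSc hS0
    (fun u hu ↦ hasDerivAt_secantX L (hS u hu).1 (hS u hu).2) (tendsto_secantX L hs)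
  have hY := eqOn_of_hasDerivAt_zero hSo hSc hS0
    (fun u hu ↦ hasDerivAt_secantY L (hS u hu).1 (hS u hu).2 (hX u hu)) (tendsto_secantY L hs)
  exact ⟨S, hSo, closure_nonempty_iff.1 ⟨0, mem_closure_iff_nhdsWithin_neBot.2 inferInstance⟩,
    fun u hu ↦ ⟨(hS u hu).1, (hS u hu).2, hX u hu, hY u hu⟩⟩

/-- The chord identities, cleared of denominators, hold on the whole domain. -/
lemma secant_cleared {s u : ℂ} (hs : s ∉ L.lattice) (hu : u ∈ secantDomain L s) :
    (℘'[L] u / 2 - ℘'[L] (s - u) / 2) ^ 2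
        - (℘[L] u + ℘[L] (s - u) + ℘[L] s) * (℘[L] u - ℘[L] (s - u)) ^ 2 = 0 ∧
      (℘'[L] u / 2 - ℘'[L] (s - u) / 2) * (℘[L] s - ℘[L] (s - u))
        + (℘'[L] (s - u) / 2 + ℘'[L] s / 2) * (℘[L] u - ℘[L] (s - u)) = 0 := by
  -- the identities hold on a nonempty open set
  obtain ⟨S, hSo, ⟨u₀, hu₀⟩, hS⟩ := exists_isOpen_secant_eq L hs
  -- both sides are analytic on the domain, which is connected
  have hUA : ∀ v ∈ secantDomain L s, AnalyticAt ℂ (fun v ↦ ℘[L] v) v ∧
      AnalyticAt ℂ (fun v ↦ ℘[L] (s - v)) v ∧ AnalyticAt ℂ (fun v ↦ ℘'[L] v / 2) v ∧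
      AnalyticAt ℂ (fun v ↦ ℘'[L] (s - v) / 2) v :=
    fun v hv ↦ ⟨L.analyticOnNhd_weierstrassP v hv.1,
      (L.analyticOnNhd_weierstrassP _ hv.2).comp (f := fun v : ℂ ↦ s - v) (by fun_prop),
      AnalyticAt.div (g := fun _ ↦ (2 : ℂ)) (L.analyticOnNhd_derivWeierstrassP v hv.1)
        analyticAt_const two_ne_zero,
      AnalyticAt.div (g := fun _ ↦ (2 : ℂ)) ((L.analyticOnNhd_derivWeierstrassP _ hv.2).comp
        (f := fun v : ℂ ↦ s - v) (by fun_prop)) analyticAt_const two_ne_zero⟩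
  constructor
  -- so the cleared identities extend by the identity theorem
  · refine AnalyticOnNhd.eqOn_zero_of_preconnected_of_eventuallyEq_zero (𝕜 := ℂ)
      (f := fun v ↦ (℘'[L] v / 2 - ℘'[L] (s - v) / 2) ^ 2
        - (℘[L] v + ℘[L] (s - v) + ℘[L] s) * (℘[L] v - ℘[L] (s - v)) ^ 2)
      (fun v hv ↦ ?_) (isPreconnected_secantDomain L s) (hS u₀ hu₀).1 ?_ hu
    · obtain ⟨h1, h2, h3, h4⟩ := hUA v hv
      exact ((h3.fun_sub h4).fun_pow 2).fun_sub
        (((h1.fun_add h2).fun_add analyticAt_const).fun_mul ((h1.fun_sub h2).fun_pow 2))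
    · filter_upwards [hSo.mem_nhds hu₀] with v hv
      obtain ⟨-, hd, h, -⟩ := hS v hv
      simp only [secantX, secantSlope] at h
      field_simp at h
      simp only [Pi.zero_apply]
      linear_combination (1 / 4) * h
  · refine AnalyticOnNhd.eqOn_zero_of_preconnected_of_eventuallyEq_zero (𝕜 := ℂ)
      (f := fun v ↦ (℘'[L] v / 2 - ℘'[L] (s - v) / 2) * (℘[L] s - ℘[L] (s - v))
        + (℘'[L] (s - v) / 2 + ℘'[L] s / 2) * (℘[L] v - ℘[L] (s - v)))
      (fun v hv ↦ ?_) (isPreconnected_secantDomain L s) (hS u₀ hu₀).1 ?_ hu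
    · obtain ⟨h1, h2, h3, h4⟩ := hUA v hv
      exact ((h3.fun_sub h4).fun_mul (analyticAt_const.fun_sub h2)).fun_add
        ((h4.fun_add analyticAt_const).fun_mul (h1.fun_sub h2))
    · filter_upwards [hSo.mem_nhds hu₀] with v hv
      obtain ⟨-, hd, -, h⟩ := hS v hv
      simp only [secantY, secantSlope] at h
      field_simp at h
      simp only [Pi.zero_apply]
      linear_combination (-1 / 2) * h

/-- The chord through the points of `z` and `w` meets the curve again at the point of `-(z + w)`. -/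
lemma secant {z w : ℂ} (hz : z ∉ L.lattice) (hw : w ∉ L.lattice) (hzw : z + w ∉ L.lattice)
    (hne : ℘[L] z ≠ ℘[L] w) :
    let ℓ := (℘'[L] z / 2 - ℘'[L] w / 2) / (℘[L] z - ℘[L] w)
    ℓ ^ 2 - ℘[L] z - ℘[L] w = ℘[L] (z + w) ∧
      -(ℓ * (℘[L] (z + w) - ℘[L] w) + ℘'[L] w / 2) = ℘'[L] (z + w) / 2 := by
  obtain ⟨s, rfl⟩ : ∃ s, w = s - z := ⟨z + w, by ring⟩
  rw [add_sub_cancel] at hzw ⊢
  obtain ⟨h1, h2⟩ := secant_cleared L hzw (u := z) ⟨hz, hw⟩
  have hd : ℘[L] z - ℘[L] (s - z) ≠ 0 := sub_ne_zero.2 hne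
  intro ℓ
  simp only [ℓ]
  constructor
  · field_simp
    linear_combination 4 * h1
  · field_simp
    linear_combination (-2) * h2

/-- Addition formula for two points with distinct abscissae. -/
lemma pt_add_of_ne {z w : ℂ} (hz : z ∉ L.lattice) (hw : w ∉ L.lattice) (hzw : z + w ∉ L.lattice)
    (hne : ℘[L] z ≠ ℘[L] w) : pt L hΔ (z + w) = pt L hΔ z + pt L hΔ w := by
  obtain ⟨h1, h2⟩ := secant L hz hw hzw hne
  rw [pt_of_notMem L hΔ hz, pt_of_notMem L hΔ hw, pt_of_notMem L hΔ hzw,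
    Point.add_of_X_ne hne]
  congr 1
  · rw [slope_of_X_ne hne, addX, ← h1]
    simp [curve]
  · rw [slope_of_X_ne hne, addY, negAddY, negY, addX, ← h2, ← h1]
    have : ℘[L] z - ℘[L] w ≠ 0 := sub_ne_zero.2 hne
    simp [curve]
    field_simp
    ring

/-- The uniformisation is additive. -/
theorem pt_add (z w : ℂ) : pt L hΔ (z + w) = pt L hΔ z + pt L hΔ w := by
  by_cases hz : z ∈ L.lattice
  · rw [pt_of_mem L hΔ hz, zero_add, add_comm z, pt_add_lattice L hΔ w hz]
  by_cases hw : w ∈ L.lattice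
  · rw [pt_of_mem L hΔ hw, add_zero, pt_add_lattice L hΔ z hw]
  have hmem : ∀ {a : ℂ}, a ∉ L.lattice → ∀ᶠ u in 𝓝[≠] (0 : ℂ), a + u ∉ L.lattice := fun {a} ha ↦ by
    have hc : Tendsto (fun u : ℂ ↦ a + u) (𝓝[≠] 0) (𝓝 a) := by
      have : Continuous fun u : ℂ ↦ a + u := by fun_prop
      simpa using (this.tendsto 0).mono_left (nhdsWithin_le_nhds (s := ({0}ᶜ : Set ℂ)))
    exact hc.eventually (L.isClosed_lattice.isOpen_compl.mem_nhds ha)
  have hsum : ∀ᶠ u in 𝓝[≠] (0 : ℂ), z + w + u ∉ L.lattice := by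
    by_cases h : z + w ∈ L.lattice
    · filter_upwards [eventually_notMem L] with u hu h'
      exact hu (by simpa using sub_mem h' h)
    · exact hmem h
  obtain ⟨u, hu⟩ := ((eventually_notMem L).and (hsum.and ((hmem hw).and
    ((eventually_weierstrassP_ne L (℘[L] (z + w))).and ((eventually_weierstrassP_ne L (℘[L] w)).and
      (eventually_weierstrassP_add_ne L hw (℘[L] z))))))).exists
  obtain ⟨hu, hs, hwu, hne1, hne2, hne3⟩ := hu
  have e1 : pt L hΔ (z + w + u) = pt L hΔ (z + w) + pt L hΔ u := by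
    by_cases h : z + w ∈ L.lattice
    · rw [pt_of_mem L hΔ h, zero_add, add_comm, pt_add_lattice L hΔ u h]
    · exact pt_add_of_ne L hΔ h hu hs hne1.symm
  have e2 : pt L hΔ (z + w + u) = pt L hΔ z + pt L hΔ (w + u) := by
    rw [add_assoc]; exact pt_add_of_ne L hΔ hz hwu (by rwa [← add_assoc]) hne3.symm
  have e3 : pt L hΔ (w + u) = pt L hΔ w + pt L hΔ u := pt_add_of_ne L hΔ hw hu hwu hne2.symm
  rw [e3, e1, ← add_assoc] at e2
  exact add_right_cancel e2

/-- `pt` as a homomorphism. -/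
def ptHom : ℂ →+ (curve L).Point := AddMonoidHom.mk' (pt L hΔ) (pt_add L hΔ)

/-- The kernel of the parametrisation is the lattice. -/
lemma ptHom_eq_zero_iff (z : ℂ) : ptHom L hΔ z = 0 ↔ z ∈ L.lattice := by
  refine ⟨fun h ↦ ?_, pt_of_mem L hΔ⟩
  by_contra hz
  change pt L hΔ z = 0 at h
  rw [pt_of_notMem L hΔ hz] at h
  exact Point.some_ne_zero _ h

/-- The uniformisation is surjective. -/
lemma ptHom_surjective : Function.Surjective (ptHom L hΔ) := by
  rintro (_ | ⟨x, y, h⟩)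
  · exact ⟨0, map_zero _⟩
  obtain ⟨z, hz, rfl⟩ := exists_weierstrassP_eq L x
  have he := h.1
  rw [equation_iff] at he
  simp only [curve] at he
  have : (y - ℘'[L] z / 2) * (y + ℘'[L] z / 2) = 0 := by
    linear_combination he - (1 / 4) * L.derivWeierstrassP_sq z hz
  rcases mul_eq_zero.1 this with h1 | h1
  · refine ⟨z, ?_⟩
    change pt L hΔ z = _
    rw [pt_of_notMem L hΔ hz]
    congr 1
    exact (sub_eq_zero.1 h1).symm
  · have hz' : -z ∉ L.lattice := fun h ↦ hz (by simpa using neg_mem h)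
    refine ⟨-z, ?_⟩
    change pt L hΔ (-z) = _
    rw [pt_of_notMem L hΔ hz']
    congr 1
    · exact L.weierstrassP_neg z
    · rw [L.derivWeierstrassP_neg]; linear_combination -h1

end Fermat.HT.Ell
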