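import Mathlib.Analysis.SpecialFunctions.Elliptic.Weierstrass
import Mathlib.Analysis.Complex.Liouville
import Mathlib.Analysis.Normed.Module.Connected

/-!
# Elliptic functions: Liouville, the ODE, surjectivity of `℘`

Among them are `hasDerivAt_derivWeierstrassP` and `exists_weierstrassP_eq`.
-/

noncomputable section

open Filter Topology Set
open PeriodPair

namespace Fermat.HT.Ell

variable (L : PeriodPair)

/-- An entire periodic function is constant. -/
lemma apply_eq_of_differentiable_periodic {f : ℂ → ℂ} (hd : Differentiable ℂ f)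
    (hper : ∀ z, ∀ l ∈ L.lattice, f (z + l) = f z) (z w : ℂ) : f z = f w :=
  hd.apply_eq_apply_of_bounded (IsZLattice.isCompact_range_of_periodic L.lattice _
    hd.continuous fun z w hw ↦ hper z w hw).isBounded z w

/-- A periodic function with only removable singularities takes a single value where it is
continuous. -/
lemma exists_const_of_removable {f : ℂ → ℂ} (hper : ∀ z, ∀ l ∈ L.lattice, f (z + l) = f z)
    (h : ∀ x, ∃ g : ℂ → ℂ, AnalyticAt ℂ g x ∧ f =ᶠ[𝓝[≠] x] g) :
    ∃ c, ∀ x, ∀ᶠ z in 𝓝[≠] x, f z = c := by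
  choose g hg hfg using h
  -- `F` fills in the removable singularities
  let F : ℂ → ℂ := fun x ↦ g x x
  have huniq : ∀ x (u : ℂ → ℂ), ContinuousAt u x → f =ᶠ[𝓝[≠] x] u → F x = u x := fun x u hu he ↦
    tendsto_nhds_unique (((hg x).continuousAt.tendsto.mono_left nhdsWithin_le_nhds).congr'
      ((hfg x).symm.trans he)) (hu.tendsto.mono_left nhdsWithin_le_nhds)
  have hF : ∀ x, F =ᶠ[𝓝 x] g x := fun x ↦ by
    have h1 := (hg x).eventually_analyticAt.mono fun y hy ↦ hy.continuousAt
    have h2 := eventually_eventually_nhdsWithin.2 (hfg x)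
    rw [eventually_nhdsWithin_iff] at h2
    filter_upwards [h1, h2] with y hy1 hy2
    rcases eq_or_ne y x with rfl | hne
    · rfl
    · refine huniq y _ hy1 ?_
      have : 𝓝[≠] x ⊓ 𝓝 y = 𝓝 y ⊓ 𝓝[≠] x := inf_comm _ _
      have h3 : ∀ᶠ z in 𝓝 y, z ∈ ({x}ᶜ : Set ℂ) := isOpen_compl_singleton.mem_nhds hne
      have h4 := hy2 hne
      rw [eventually_nhdsWithin_iff] at h4
      exact (h3.and h4).filter_mono nhdsWithin_le_nhds |>.mono fun z hz ↦ hz.2 hz.1
  have hd : Differentiable ℂ F := fun x ↦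
    ((hg x).congr (hF x).symm).differentiableAt
  -- it inherits the periods
  have hperF : ∀ z, ∀ l ∈ L.lattice, F (z + l) = F z := fun z l hl ↦ by
    have hg' : AnalyticAt ℂ (fun w ↦ g z (w - l)) (z + l) :=
      AnalyticAt.comp (by simpa using hg z) (by fun_prop)
    have := huniq (z + l) _ hg'.continuousAt (by
      have ht : Tendsto (fun w : ℂ ↦ w - l) (𝓝[≠] (z + l)) (𝓝[≠] z) := by
        refine tendsto_nhdsWithin_of_tendsto_nhds_of_eventually_within _ ?_ ?_
        · have : Continuous fun w : ℂ ↦ w - l := by fun_prop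
          simpa using (this.tendsto (z + l)).mono_left nhdsWithin_le_nhds
        · exact eventually_nhdsWithin_of_forall fun w hw h0 ↦
            hw (by simp only [mem_singleton_iff] at h0 ⊢; rw [← h0]; ring)
      filter_upwards [ht.eventually (hfg z)] with w hw
      rw [← hw, ← hper (w - l) l hl, sub_add_cancel])
    simpa using this
  -- an entire periodic function is constant
  refine ⟨F 0, fun x ↦ ?_⟩
  filter_upwards [hfg x, (hF x).filter_mono nhdsWithin_le_nhds] with z hz hz'
  rw [hz, ← hz']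
  exact apply_eq_of_differentiable_periodic L hd hperF z 0

/-- An elliptic function with only removable singularities is constant where it is continuous. -/
lemma exists_const_of_removable' {f : ℂ → ℂ} (hper : ∀ z, ∀ l ∈ L.lattice, f (z + l) = f z)
    (h : ∀ x, ∃ g : ℂ → ℂ, AnalyticAt ℂ g x ∧ f =ᶠ[𝓝[≠] x] g) :
    ∃ c, ∀ x, ContinuousAt f x → f x = c := by
  obtain ⟨c, hc⟩ := exists_const_of_removable L hper h
  exact ⟨c, fun x hx ↦ tendsto_nhds_unique (hx.tendsto.mono_left nhdsWithin_le_nhds)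
    (tendsto_const_nhds.congr' ((hc x).mono fun z hz ↦ hz.symm))⟩

/-- `℘` is not constant near `0`. -/
lemma not_eventually_const (a : ℂ) : ¬ ℘[L] =ᶠ[𝓝[≠] (0 : ℂ)] fun _ ↦ a := by
  intro h
  have hord := L.order_weierstrassP 0 (zero_mem _)
  rw [meromorphicOrderAt_congr h, meromorphicOrderAt_const] at hord
  by_cases ha : a = 0
  · rw [if_pos ha] at hord
    exact WithTop.coe_ne_top (a := (-2 : ℤ)) hord.symm
  · rw [if_neg ha] at hord
    exact absurd (WithTop.coe_eq_coe.1
      (show ((0 : ℤ) : WithTop ℤ) = ((-2 : ℤ) : WithTop ℤ) from hord))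
      (by norm_num)

/-- `℘''(z) = 6 ℘(z)² - g₂ / 2`. -/
lemma hasDerivAt_derivWeierstrassP {z : ℂ} (hz : z ∉ L.lattice) :
    HasDerivAt ℘'[L] (6 * ℘[L] z ^ 2 - L.g₂ / 2) z := by
  have hopen : IsOpen (L.lattice : Set ℂ)ᶜ := L.isClosed_lattice.isOpen_compl
  have hP : ∀ w ∉ L.lattice, HasDerivAt ℘[L] (℘'[L] w) w := fun w hw ↦ by
    have := ((L.differentiableOn_weierstrassP).differentiableAt (hopen.mem_nhds hw)).hasDerivAt
    rwa [deriv_weierstrassP] at this
  set D := fun w ↦ 6 * ℘[L] w ^ 2 - L.g₂ / 2 with hD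
  have hA := L.analyticOnNhd_derivWeierstrassP
  have heq : EqOn (fun w ↦ ℘'[L] w * (deriv ℘'[L] w - D w)) 0 (L.lattice : Set ℂ)ᶜ := by
    intro w hw
    have h1 : HasDerivAt (fun u ↦ ℘'[L] u ^ 2) (2 * ℘'[L] w * deriv ℘'[L] w) w := by
      simpa using ((hA w hw).differentiableAt.hasDerivAt).fun_pow 2
    have h2 : HasDerivAt (fun u ↦ 4 * ℘[L] u ^ 3 - L.g₂ * ℘[L] u - L.g₃)
        (4 * (3 * ℘[L] w ^ 2 * ℘'[L] w) - L.g₂ * ℘'[L] w) w := by
      simpa using (((hP w hw).fun_pow 3).const_mul 4 |>.fun_sub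
        ((hP w hw).const_mul L.g₂)).sub_const L.g₃
    have h3 := h1.unique (h2.congr_of_eventuallyEq
      (eventually_of_mem (hopen.mem_nhds hw) fun u hu ↦ L.derivWeierstrassP_sq u hu))
    simp only [Pi.zero_apply, hD]
    linear_combination (1 / 2) * h3
  -- `℘'` is not identically zero near any point of the connected set `ℂ ∖ Λ`
  have hconn : IsPreconnected (L.lattice : Set ℂ)ᶜ := by
    refine (Set.Countable.isConnected_compl_of_one_lt_rank (by simp) ?_).isPreconnected
    have : Countable L.lattice := L.latticeEquivProd.toEquiv.countable_iff.mpr inferInstance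
    exact Set.to_countable _
  have hne : ∃ w ∈ (L.lattice : Set ℂ)ᶜ, ℘'[L] w ≠ 0 := by
    by_contra h
    push Not at h
    have hc : ∀ w ∈ (L.lattice : Set ℂ)ᶜ, HasDerivAt ℘[L] 0 w := fun w hw ↦ h w hw ▸ hP w hw
    obtain ⟨a, ha⟩ := hopen.exists_eq_add_of_deriv_eq (g := fun _ ↦ (0 : ℂ)) hconn
      (fun w hw ↦ (hc w hw).differentiableAt.differentiableWithinAt) (by fun_prop)
      (fun w hw ↦ by simp [(hc w hw).deriv])
    refine not_eventually_const L a ?_
    filter_upwards [self_mem_nhdsWithin,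
      mem_nhdsWithin_of_mem_nhds (L.compl_lattice_sdiff_singleton_mem_nhds 0)] with w hw hw'
    simpa using ha (show w ∈ (L.lattice : Set ℂ)ᶜ by simp_all)
  have hall : EqOn (fun w ↦ deriv ℘'[L] w - D w) 0 (L.lattice : Set ℂ)ᶜ := by
    obtain ⟨w, hw, hw'⟩ := hne
    have hana : AnalyticOnNhd ℂ (fun w ↦ deriv ℘'[L] w - D w) (L.lattice : Set ℂ)ᶜ := fun u hu ↦ by
      have := (hA.deriv) u hu
      have := L.analyticOnNhd_weierstrassP u hu
      simp only [hD]
      fun_prop
    refine hana.eqOn_zero_of_preconnected_of_eventuallyEq_zero hconn hw ?_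
    filter_upwards [(hA w hw).continuousAt.eventually_ne hw', hopen.mem_nhds hw] with u hu hu'
    simpa using (mul_eq_zero.1 (heq hu')).resolve_left hu
  have h0 : deriv ℘'[L] z - D z = 0 := hall hz
  have h := (hA z hz).differentiableAt.hasDerivAt
  rwa [sub_eq_zero.1 h0] at h

/-- The derivative of `℘` outside the lattice is `℘'`. -/
lemma hasDerivAt_weierstrassP {z : ℂ} (hz : z ∉ L.lattice) :
    HasDerivAt ℘[L] (℘'[L] z) z := by
  have := ((L.differentiableOn_weierstrassP).differentiableAt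
    (L.isClosed_lattice.isOpen_compl.mem_nhds hz)).hasDerivAt
  rwa [deriv_weierstrassP] at this

/-- `℘` takes every value. -/
lemma exists_weierstrassP_eq (c : ℂ) : ∃ z, z ∉ L.lattice ∧ ℘[L] z = c := by
  by_contra h
  push Not at h
  let F : ℂ → ℂ := fun z ↦ (℘[L] z - c)⁻¹
  have hper : ∀ z, ∀ l ∈ L.lattice, F (z + l) = F z := fun z l hl ↦ by
    simp only [F, show ℘[L] (z + l) = ℘[L] z from L.weierstrassP_add_coe z ⟨l, hl⟩]
  obtain ⟨a, ha⟩ := exists_const_of_removable' L hper fun x ↦ by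
    by_cases hx : x ∈ L.lattice
    · refine ⟨fun z ↦ (z - x) ^ 2 / ((z - x) ^ 2 * ℘[L - x] z + 1 - (z - x) ^ 2 / x ^ 2
        - c * (z - x) ^ 2), ?_, ?_⟩
      · have : AnalyticAt ℂ ℘[L - x] x := L.analyticAt_weierstrassPExcept x
        rcases eq_or_ne x 0 with rfl | hx0
        · simp only [ne_eq, OfNat.ofNat_ne_zero, not_false_eq_true, zero_pow, div_zero, sub_zero]
          fun_prop (disch := simp)
        · fun_prop (disch := simp)
      · filter_upwards [self_mem_nhdsWithin] with z (hz : z ≠ x)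
        have h1 : (z - x) ^ 2 ≠ 0 := pow_ne_zero _ (sub_ne_zero.2 hz)
        have h2 := L.ite_eq_one_sub_sq_mul_weierstrassP x hx z
        rw [if_neg hz] at h2
        rw [← h2]
        simp only [F]
        rw [show (z - x) ^ 2 * ℘[L] z - c * (z - x) ^ 2 = (℘[L] z - c) * (z - x) ^ 2 by ring,
          div_mul_cancel_right₀ h1]
    · refine ⟨F, ?_, EventuallyEq.rfl⟩
      have := L.analyticOnNhd_weierstrassP x hx
      simp only [F]
      fun_prop (disch := exact sub_ne_zero.2 (h x hx))
  -- `℘` is then constant off the lattice, so has no pole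
  have hval : ∀ z, z ∉ L.lattice → ℘[L] z = a⁻¹ + c := fun z hz ↦ by
    have := ha z (by
      have := L.analyticOnNhd_weierstrassP z hz
      have hF : AnalyticAt ℂ (fun w ↦ (℘[L] w - c)⁻¹) z :=
        AnalyticAt.inv (by fun_prop) (sub_ne_zero.2 (h z hz))
      exact hF.continuousAt)
    rw [← this]; simp [F]
  refine not_eventually_const L (a⁻¹ + c) ?_
  filter_upwards [self_mem_nhdsWithin,
    mem_nhdsWithin_of_mem_nhds (L.compl_lattice_sdiff_singleton_mem_nhds 0)] with w hw hw'
  exact hval w (by simp_all)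

end Fermat.HT.Ell
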