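import Fermat.Agent.HT.Ell.Uniform
import Mathlib.Analysis.Calculus.IteratedDeriv.Lemmas

/-!
# Vélu's formulas for a lattice refined by a point of prime order

The main result is `velu_invariants`, the invariants of a `Refines` lattice.
-/

noncomputable section

open Filter Topology Set Nat
open PeriodPair

namespace Fermat.HT.Ell

variable {L L' : PeriodPair} {n : ℕ} {c : ℂ}

/-- `L' = L + ℤ c` with `c` of order exactly `n` modulo `L`. -/
structure Refines (L L' : PeriodPair) (n : ℕ) (c : ℂ) : Prop where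
  /-- The finer lattice is generated by the coarser one and `c`. -/
  lattice_eq : L'.lattice = L.lattice ⊔ Submodule.span ℤ {c}
  /-- `n c` lies in the coarser lattice. -/
  mul_mem : (n : ℂ) * c ∈ L.lattice
  /-- No smaller positive multiple of `c` does. -/
  notMem : ∀ i : ℕ, i ∈ Finset.Ico 1 n → (i : ℂ) * c ∉ L.lattice
  /-- `n` is positive. -/
  pos : 0 < n

variable (h : Refines L L' n c)
include h

/-- The lattice is contained in its refinement. -/
lemma Refines.mem_of_mem {z : ℂ} (hz : z ∈ L.lattice) : z ∈ L'.lattice :=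
  h.lattice_eq ▸ Submodule.mem_sup_left hz

/-- The multiples of `c` are in the refined lattice. -/
lemma Refines.mul_c_mem (i : ℕ) : (i : ℂ) * c ∈ L'.lattice := by
  rw [h.lattice_eq]
  exact Submodule.mem_sup_right (Submodule.mem_span_singleton.2 ⟨i, by simp⟩)

/-- The refined lattice is the union of the translates by multiples of `c`. -/
lemma Refines.mem_iff {z : ℂ} :
    z ∈ L'.lattice ↔ ∃ i ∈ Finset.range n, z + (i : ℂ) * c ∈ L.lattice := by
  constructor
  · intro hz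
    rw [h.lattice_eq, Submodule.mem_sup] at hz
    obtain ⟨l, hl, v, hv, rfl⟩ := hz
    obtain ⟨k, rfl⟩ := Submodule.mem_span_singleton.1 hv
    have hn : (0 : ℤ) < n := by exact_mod_cast h.pos
    refine ⟨((-k) % n).toNat, Finset.mem_range.2 ?_, ?_⟩
    · have := Int.emod_lt_of_pos (-k) hn; omega
    · have e : (((-k) % n).toNat : ℂ) = -(k : ℂ) - ((-k) / (n : ℤ) : ℤ) * (n : ℂ) := by
        have h1 : ((((-k) % n).toNat : ℤ) : ℂ) = (((-k) % n : ℤ) : ℂ) := by
          rw [Int.toNat_of_nonneg (Int.emod_nonneg _ hn.ne')]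
        rw [Int.cast_natCast] at h1
        rw [h1, Int.emod_def]
        push_cast; ring
      have : l + k • c + (((-k) % n).toNat : ℂ) * c
          = l - ((-k) / (n : ℤ) : ℤ) • ((n : ℂ) * c) := by
        rw [e, zsmul_eq_mul, zsmul_eq_mul]; ring
      rw [this]
      exact sub_mem hl (zsmul_mem h.mul_mem _)
  · rintro ⟨i, -, hi⟩
    have := sub_mem (h.mem_of_mem hi) (h.mul_c_mem i)
    simpa using this

/-- Translates by multiples of `c` of a point outside `L'` are outside `L`. -/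
lemma Refines.notMem' {z : ℂ} (hz : z ∉ L'.lattice) (i : ℕ) : z + (i : ℂ) * c ∉ L.lattice :=
  fun hh ↦ hz (by simpa using sub_mem (h.mem_of_mem hh) (h.mul_c_mem i))

/-- At most one translate by `i c`, `i < n`, of a point lies in `L`. -/
lemma Refines.eq_of_mem {z : ℂ} {i j : ℕ} (hi : i ∈ Finset.range n) (hj : j ∈ Finset.range n)
    (hzi : z + (i : ℂ) * c ∈ L.lattice) (hzj : z + (j : ℂ) * c ∈ L.lattice) : i = j := by
  wlog hij : i ≤ j generalizing i j
  · exact (this hj hi hzj hzi (by omega)).symm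
  by_contra hne
  refine h.notMem (j - i) (by simp at hi hj ⊢; omega) ?_
  have := sub_mem hzj hzi
  rw [Nat.cast_sub hij]
  convert this using 1; ring

/-- `℘` of `L'` is Vélu's sum. -/
private lemma weierstrassP_eq_sum (z : ℂ) (hz : z ∉ L'.lattice) :
    ℘[L'] z = ∑ i ∈ Finset.range n, (℘[L] (z + (i : ℂ) * c) - ℘[L] ((i : ℂ) * c)) := by
  set S := fun u ↦ ∑ i ∈ Finset.range n, (℘[L] (u + (i : ℂ) * c) - ℘[L] ((i : ℂ) * c)) with hS
  set D := fun u ↦ ℘[L'] u - S u with hD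
  -- the difference is periodic
  have hper : ∀ u, ∀ l ∈ L.lattice, D (u + l) = D u := fun u l hl ↦ by
    simp only [hD, hS, show ℘[L'] (u + l) = ℘[L'] u from L'.weierstrassP_add_coe u ⟨l,
      h.mem_of_mem hl⟩]
    congr 1
    refine Finset.sum_congr rfl fun i _ ↦ ?_
    rw [show u + l + (i : ℂ) * c = u + (i : ℂ) * c + l by ring,
      show ℘[L] (u + (i : ℂ) * c + l) =
        ℘[L] (u + (i : ℂ) * c) from L.weierstrassP_add_coe _ ⟨l, hl⟩]
  have hcomp : ∀ (a x : ℂ) (f : ℂ → ℂ), AnalyticAt ℂ f (x + a) →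
      AnalyticAt ℂ (fun u ↦ f (u + a)) x := fun a x f hf ↦
    AnalyticAt.comp (g := f) (f := fun u : ℂ ↦ u + a) hf (by fun_prop)
  -- near each point: an analytic function plus a known constant
  have hloc : ∀ x, ∃ g : ℂ → ℂ, AnalyticAt ℂ g x ∧ D =ᶠ[𝓝[≠] x] g ∧ (x = 0 → g x = 0) := by
    intro x
    by_cases hx : x ∈ L'.lattice
    · obtain ⟨j, hj, hxj⟩ := h.mem_iff.1 hx
      refine ⟨fun u ↦ ℘[L' - x] u - 1 / x ^ 2 - (℘[L - (x + (j : ℂ) * c)] (u + (j : ℂ) * c)
          - 1 / (x + (j : ℂ) * c) ^ 2 - ℘[L] ((j : ℂ) * c))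
          - ∑ i ∈ (Finset.range n).erase j, (℘[L] (u + (i : ℂ) * c) - ℘[L] ((i : ℂ) * c)),
          ?_, ?_, ?_⟩
      · refine ((AnalyticAt.fun_sub ?_ ?_).fun_sub ?_).fun_sub
          (Finset.analyticAt_fun_sum _ fun i hi ↦ ?_)
        · exact L'.analyticAt_weierstrassPExcept x
        · exact analyticAt_const
        · exact ((hcomp _ _ _ (L.analyticAt_weierstrassPExcept _)).fun_sub analyticAt_const).fun_sub
            analyticAt_const
        · exact (hcomp _ _ _ (L.analyticOnNhd_weierstrassP _ fun hh ↦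
            Finset.ne_of_mem_erase hi (h.eq_of_mem (Finset.mem_of_mem_erase hi) hj hh hxj))).fun_sub
            analyticAt_const
      · refine Eventually.of_forall fun u ↦ ?_
        simp only [hD, hS]
        rw [← Finset.add_sum_erase _ _ hj, ← L'.weierstrassPExcept_add ⟨x, hx⟩ u,
          ← L.weierstrassPExcept_add ⟨_, hxj⟩ (u + (j : ℂ) * c)]
        simp only [show u + (j : ℂ) * c - (x + (j : ℂ) * c) = u - x by ring]
        ring
      · rintro rfl
        have hj0 : j = 0 := h.eq_of_mem (z := 0) hj (Finset.mem_range.2 h.pos) hxj (by simp)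
        subst hj0
        simp
    · refine ⟨D, ?_, EventuallyEq.rfl, fun h0 ↦ absurd (h0 ▸ zero_mem _) hx⟩
      refine AnalyticAt.fun_sub (L'.analyticOnNhd_weierstrassP x hx)
        (Finset.analyticAt_fun_sum _ fun i _ ↦ ?_)
      exact (hcomp _ _ _ (L.analyticOnNhd_weierstrassP _ (h.notMem' hx i))).fun_sub analyticAt_const
  -- so it is constant
  obtain ⟨C, hC⟩ := exists_const_of_removable L hper fun x ↦ by
    obtain ⟨g, h1, h2, -⟩ := hloc x
    exact ⟨g, h1, h2⟩
  have hlim : ∀ {x} {g : ℂ → ℂ}, AnalyticAt ℂ g x → D =ᶠ[𝓝[≠] x] g → g x = C := fun {x g} h1 h2 ↦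
    tendsto_nhds_unique (h1.continuousAt.tendsto.mono_left
      (nhdsWithin_le_nhds (s := ({x}ᶜ : Set ℂ))))
      (tendsto_const_nhds.congr' ((EventuallyEq.symm (hC x : D =ᶠ[𝓝[≠] x] fun _ ↦ C)).trans h2))
  -- the constant vanishes at `0`
  obtain ⟨g, h1, h2, h3⟩ := hloc 0
  have hC0 : C = 0 := (hlim h1 h2).symm.trans (h3 rfl)
  have hDz : D z = C := by
    refine hlim (x := z) (g := D) ?_ EventuallyEq.rfl
    refine AnalyticAt.fun_sub (L'.analyticOnNhd_weierstrassP z hz)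
      (Finset.analyticAt_fun_sum _ fun i _ ↦ ?_)
    exact (hcomp _ _ _ (L.analyticOnNhd_weierstrassP _ (h.notMem' hz i))).fun_sub analyticAt_const
  simpa [hC0, hD, hS, sub_eq_zero] using hDz

/-- Vélu: `℘` of the refined lattice. -/
theorem velu_weierstrassP {z : ℂ} (hz : z ∉ L'.lattice) :
    ℘[L'] z = ∑ i ∈ Finset.range n, ℘[L] (z + (i : ℂ) * c)
      - ∑ i ∈ Finset.Ico 1 n, ℘[L] ((i : ℂ) * c) := by
  rw [weierstrassP_eq_sum h z hz, Finset.sum_sub_distrib]
  congr 1
  rw [Finset.sum_range_eq_add_Ico _ h.pos]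
  simp

/-- Vélu: `℘'` of the refined lattice. -/
theorem velu_derivWeierstrassP {z : ℂ} (hz : z ∉ L'.lattice) :
    ℘'[L'] z = ∑ i ∈ Finset.range n, ℘'[L] (z + (i : ℂ) * c) := by
  have h1 : HasDerivAt (fun u ↦ ∑ i ∈ Finset.range n, ℘[L] (u + (i : ℂ) * c)
      - ∑ i ∈ Finset.Ico 1 n, ℘[L] ((i : ℂ) * c))
      (∑ i ∈ Finset.range n, ℘'[L] (z + (i : ℂ) * c)) z :=
    (HasDerivAt.fun_sum fun i _ ↦
      (hasDerivAt_weierstrassP L (h.notMem' hz i)).comp_add_const z ((i : ℂ) * c)).sub_const _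
  refine (hasDerivAt_weierstrassP L' hz).unique (h1.congr_of_eventuallyEq ?_)
  filter_upwards [L'.isClosed_lattice.isOpen_compl.mem_nhds hz] with u hu
  exact velu_weierstrassP h hu

omit h in
/-- The second and fourth derivatives of `℘`. -/
lemma iteratedDeriv_two_four {w : ℂ} (hw : w ∉ L.lattice) :
    iteratedDeriv 2 ℘[L] w = 6 * ℘[L] w ^ 2 - L.g₂ / 2 ∧
      iteratedDeriv 4 ℘[L] w = 12 * ℘'[L] w ^ 2 + 12 * ℘[L] w * (6 * ℘[L] w ^ 2 - L.g₂ / 2) := by
  have hev : ∀ {f g : ℂ → ℂ} {x : ℂ}, x ∉ L.lattice → (∀ u ∉ L.lattice, f u = g u) → f =ᶠ[𝓝 x] g :=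
    fun hx hfg ↦ eventually_of_mem (L.isClosed_lattice.isOpen_compl.mem_nhds hx) hfg
  have h2 : ∀ u ∉ L.lattice, iteratedDeriv 2 ℘[L] u = 6 * ℘[L] u ^ 2 - L.g₂ / 2 := fun u hu ↦ by
    rw [iteratedDeriv_succ, iteratedDeriv_one, deriv_weierstrassP]
    exact (hasDerivAt_derivWeierstrassP L hu).deriv
  have h3 : ∀ u ∉ L.lattice, iteratedDeriv 3 ℘[L] u = 12 * ℘[L] u * ℘'[L] u := fun u hu ↦ by
    rw [iteratedDeriv_succ, (hev hu h2).deriv_eq]
    have hd := (((hasDerivAt_weierstrassP L hu).fun_pow 2).const_mul 6).sub_const (L.g₂ / 2)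
    rw [hd.deriv]
    push_cast; ring
  refine ⟨h2 w hw, ?_⟩
  rw [iteratedDeriv_succ, (hev hw h3).deriv_eq]
  have hd := ((hasDerivAt_weierstrassP L hw).const_mul 12).fun_mul
    (hasDerivAt_derivWeierstrassP L hw)
  rw [hd.deriv]
  ring

/-- Near `0` the regular part of `℘` of `L'` is that of `℘` of `L` plus the translated terms. -/
private lemma except_eventuallyEq : ℘[L' - (0 : ℂ)] =ᶠ[𝓝 0] fun z ↦
    ℘[L - (0 : ℂ)] z + ∑ i ∈ Finset.Ico 1 n, (℘[L] (z + (i : ℂ) * c) - ℘[L] ((i : ℂ) * c)) := by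
  filter_upwards [L'.compl_lattice_sdiff_singleton_mem_nhds 0] with z hz
  rcases eq_or_ne z 0 with rfl | hz0
  · simp
  have hz' : z ∉ L'.lattice := by simp_all
  have e1 := L'.weierstrassPExcept_def ⟨0, zero_mem _⟩ z
  have e2 := L.weierstrassPExcept_def ⟨0, zero_mem _⟩ z
  simp only at e1 e2
  rw [e1, e2, weierstrassP_eq_sum h z hz', Finset.sum_range_eq_add_Ico _ h.pos]
  simp
  ring

/-- Vélu: the invariants of the refined lattice. -/
theorem velu_invariants :
    L'.g₂ = L.g₂ + 10 * ∑ i ∈ Finset.Ico 1 n, (6 * ℘[L] ((i : ℂ) * c) ^ 2 - L.g₂ / 2) ∧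
      L'.g₃ = L.g₃ + 7 / 6 * ∑ i ∈ Finset.Ico 1 n, (12 * ℘'[L] ((i : ℂ) * c) ^ 2
        + 12 * ℘[L] ((i : ℂ) * c) * (6 * ℘[L] ((i : ℂ) * c) ^ 2 - L.g₂ / 2)) := by
  have key : ∀ k : ℕ, k ≠ 0 → ((k + 1)! : ℂ) * L'.G (k + 2) = (k + 1)! * L.G (k + 2)
      + ∑ i ∈ Finset.Ico 1 n, iteratedDeriv k ℘[L] ((i : ℂ) * c) := by
    intro k hk
    have han : ∀ i ∈ Finset.Ico 1 n, AnalyticAt ℂ (fun z ↦ ℘[L] (z + (i : ℂ) * c)) 0 := fun i hi ↦
      AnalyticAt.comp (g := ℘[L]) (f := fun z : ℂ ↦ z + (i : ℂ) * c)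
        (by simpa using L.analyticOnNhd_weierstrassP _ (h.notMem i hi)) (by fun_prop)
    have h1 := (except_eventuallyEq h).iteratedDeriv_eq k
    rw [L'.iteratedDeriv_weierstrassPExcept_self, if_neg hk, L'.sumInvPow_zero,
      iteratedDeriv_fun_add (L.analyticAt_weierstrassPExcept 0).contDiffAt
        (Finset.analyticAt_fun_sum _ fun i hi ↦ (han i hi).fun_sub analyticAt_const).contDiffAt,
      L.iteratedDeriv_weierstrassPExcept_self, if_neg hk, L.sumInvPow_zero,
      iteratedDeriv_fun_sum fun i hi ↦ ((han i hi).fun_sub analyticAt_const).contDiffAt] at h1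
    rw [h1]
    congr 1
    refine Finset.sum_congr rfl fun i hi ↦ ?_
    rw [iteratedDeriv_fun_sub (han i hi).contDiffAt contDiffAt_const,
      iteratedDeriv_const, if_neg hk, sub_zero, iteratedDeriv_comp_add_const]
    simp
  constructor
  · have := key 2 two_ne_zero
    rw [Finset.sum_congr rfl fun i hi ↦ (iteratedDeriv_two_four (h.notMem i hi)).1] at this
    simp only [PeriodPair.g₂] at this ⊢
    norm_num [Nat.factorial, -Finset.sum_sub_distrib] at this ⊢
    linear_combination 10 * this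
  · have := key 4 four_ne_zero
    rw [Finset.sum_congr rfl fun i hi ↦ (iteratedDeriv_two_four (h.notMem i hi)).2] at this
    simp only [PeriodPair.g₃, PeriodPair.g₂] at this ⊢
    norm_num [Nat.factorial, -Finset.sum_sub_distrib] at this ⊢
    linear_combination (7 / 6) * this

end Fermat.HT.Ell
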